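import Fermat.Agent.S58.Contracts
import Fermat.Agent.Lib.Ell.Main
import Fermat.Agent.S13.FieldOfDef

/-!
# S58, block TORS : torsion points of `E(ℚ̄)`, from `#E[n] = n²` (`Lib/Ell/Main.lean`)
-/

set_option autoImplicit false

namespace Fermat.Agent.S58

open WeierstrassCurve WeierstrassCurve.Affine

theorem Tors_model (W : WeierstrassCurve ℤ) :
    W.IsIntegralModelOf (W.map (Int.castRingHom ℚ)) := ⟨1, one_smul _ _⟩

theorem Tors_disc (W : WeierstrassCurve ℤ) (hΔ : W.Δ ≠ 0) :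
    (W.map (Int.castRingHom ℚ)).Δ ≠ 0 := by
  rw [map_Δ]
  exact (map_ne_zero_iff _ Int.cast_injective).mpr hΔ

/-- LEAF TO-A (~30 lines).  `Lib.Ell.card_torsionBy` with `E = W.map (Int.castRingHom ℚ)`;
`IsIntegralModelOf` with `C = 1` (`one_smul`); `map_Δ`, `Int.cast_injective`. -/
theorem card_tors (W : WeierstrassCurve ℤ) (hΔ : W.Δ ≠ 0) (n : ℕ) (hn : 0 < n) :
    Nat.card (Submodule.torsionBy ℤ (EP W) n) = n ^ 2 := by
  exact Fermat.Agent.Lib.Ell.card_torsionBy _ (Tors_disc W hΔ) W (Tors_model W) n hn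

theorem Tors_set_eq (W : WeierstrassCurve ℤ) (m : ℕ) :
    {P : EP W | m • P = 0} = (Submodule.torsionBy ℤ (EP W) m : Set (EP W)) := by
  ext P
  rw [Set.mem_ofPred_eq, SetLike.mem_coe, Submodule.mem_torsionBy_iff, natCast_zsmul]

theorem Tors_ncard (W : WeierstrassCurve ℤ) (hΔ : W.Δ ≠ 0) (m : ℕ) (hm : 0 < m) :
    {P : EP W | m • P = 0}.ncard = m ^ 2 := by
  rw [Tors_set_eq, ← card_tors W hΔ m hm]
  exact (Nat.card_coe_set_eq _).symm

/-- LEAF TO-B (~30 lines).  `Nat.finite_of_card_ne_zero` and `card_tors`;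
`Submodule.mem_torsionBy_iff`, `natCast_zsmul`. -/
theorem tors_fin (W : WeierstrassCurve ℤ) (hΔ : W.Δ ≠ 0) (m : ℕ) (hm : 0 < m) :
    {P : EP W | m • P = 0}.Finite := by
  refine Set.finite_of_ncard_ne_zero ?_
  rw [Tors_ncard W hΔ m hm]
  exact pow_ne_zero 2 hm.ne'

/-- LEAF TO-C (~70 lines).  `n = 0`: `P = 0`.  `n + 1`: `E[p^n] ⊆ E[p^(n+1)]` has
`p^(2n) < p^(2n+2)` elements, so there is `P` with `p^(n+1) • P = 0`, `p^n • P ≠ 0`;
`addOrderOf_eq_prime_pow`. -/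
theorem tors_exact (W : WeierstrassCurve ℤ) (hΔ : W.Δ ≠ 0) (p : ℕ) (hp : p.Prime) (n : ℕ) :
    ∃ P : EP W, addOrderOf P = p ^ n := by
  have : Fact p.Prime := ⟨hp⟩
  cases n with
  | zero => exact ⟨0, by rw [addOrderOf_zero, pow_zero]⟩
  | succ n =>
    have hlt : {P : EP W | p ^ n • P = 0}.ncard < {P : EP W | p ^ (n + 1) • P = 0}.ncard := by
      rw [Tors_ncard W hΔ _ (pow_pos hp.pos n), Tors_ncard W hΔ _ (pow_pos hp.pos (n + 1))]
      exact Nat.pow_lt_pow_left (Nat.pow_lt_pow_right hp.one_lt (Nat.lt_succ_self n)) two_ne_zero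
    obtain ⟨P, hP1, hP2⟩ := Set.exists_mem_notMem_of_ncard_lt_ncard hlt
      (tors_fin W hΔ _ (pow_pos hp.pos n))
    exact ⟨P, addOrderOf_eq_prime_pow hP2 hP1⟩

/-- LEAF TO-D (~60 lines).  The multiples `k • P`, `k : ℤ`, are the `k • P`, `0 ≤ k < p`
(`p • P = 0`): at most `p < p²` points. -/
theorem tors_two (W : WeierstrassCurve ℤ) (hΔ : W.Δ ≠ 0) (p : ℕ) (hp : p.Prime)
    (P : EP W) (hP : p • P = 0) : ∃ Q : EP W, p • Q = 0 ∧ ∀ k : ℤ, Q ≠ k • P := by
  have hdvd : addOrderOf P ∣ p := addOrderOf_dvd_of_nsmul_eq_zero hP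
  have hpos : 0 < addOrderOf P := Nat.pos_of_dvd_of_pos hdvd hp.pos
  have hcard : ((AddSubgroup.zmultiples P : AddSubgroup (EP W)) : Set (EP W)).ncard =
      addOrderOf P := by
    rw [← Nat.card_zmultiples P]
    exact (Nat.card_coe_set_eq _).symm
  have hfin : ((AddSubgroup.zmultiples P : AddSubgroup (EP W)) : Set (EP W)).Finite := by
    refine Set.finite_of_ncard_ne_zero ?_
    rw [hcard]
    exact hpos.ne'
  have hlt : ((AddSubgroup.zmultiples P : AddSubgroup (EP W)) : Set (EP W)).ncard <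
      {Q : EP W | p • Q = 0}.ncard := by
    rw [hcard, Tors_ncard W hΔ p hp.pos]
    calc addOrderOf P ≤ p := Nat.le_of_dvd hp.pos hdvd
      _ < p ^ 2 := by
        have := hp.one_lt
        nlinarith
  obtain ⟨Q, hQ1, hQ2⟩ := Set.exists_mem_notMem_of_ncard_lt_ncard hlt hfin
  refine ⟨Q, hQ1, fun k hk => hQ2 ?_⟩
  exact AddSubgroup.mem_zmultiples_iff.mpr ⟨k, hk.symm⟩

/-- LEAF TO-E (~40 lines).  `S13.exists_field_of_def` (needs `Finite (torsionBy ..)` from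
`card_tors`, `Algebra.IsAlgebraic ℚ ℚ̄`); `σ ∈ M.fixingSubgroup ↔ ∀ x ∈ M, σ x = x`
(`IntermediateField.mem_fixingSubgroup_iff`). -/
theorem tors_level (W : WeierstrassCurve ℤ) (hΔ : W.Δ ≠ 0) (m : ℕ) (hm : 0 < m) :
    ∃ L : IntermediateField ℚ Qb, FiniteDimensional ℚ L ∧
      ∀ σ : GQ, (∀ x ∈ L, σ x = x) → ∀ P : EP W, m • P = 0 → σ • P = P := by
  have : Finite (Submodule.torsionBy ℤ (EP W) m) :=
    Nat.finite_of_card_ne_zero (by rw [card_tors W hΔ m hm]; exact pow_ne_zero 2 hm.ne')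
  have hG := Fermat.Agent.Lib.Frobenius.isGalois_algebraicClosure inferInstance
  have hAlg : Algebra.IsAlgebraic ℚ (AlgebraicClosure ℚ) := hG.to_normal.toIsAlgebraic
  obtain ⟨M, hM1, hM2⟩ := Fermat.Agent.S13.exists_field_of_def (K := Qb)
    (W.map (Int.castRingHom ℚ)) m
  refine ⟨M, hM1, fun σ hσ P hP => ?_⟩
  have hPmem : P ∈ Submodule.torsionBy ℤ (EP W) m := by
    rw [Submodule.mem_torsionBy_iff, natCast_zsmul]
    exact hP
  have h1 := hM2 σ ((IntermediateField.mem_fixingSubgroup_iff _ σ).mpr hσ) ⟨P, hPmem⟩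
  exact congrArg Subtype.val h1

theorem stmtTors : StmtTors where
  exact := fun W hΔ p hp n => tors_exact W hΔ p hp n
  two := fun W hΔ p hp P hP => tors_two W hΔ p hp P hP
  fin := fun W hΔ m hm => tors_fin W hΔ m hm
  level := fun W hΔ m hm => tors_level W hΔ m hm

/-- LEAF TO-F (~30 lines).  `Lib.Ell.frob_rel` with `E = W.map (Int.castRingHom ℚ)`, `C = 1`. -/
theorem stmtFrobAE : StmtFrobAE := by
  intro W hΔ m hm
  exact Fermat.Agent.Lib.Ell.frob_rel _ (Tors_disc W hΔ) W (Tors_model W) m hm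

end Fermat.Agent.S58
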