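import Fermat.Statements.S58
import Fermat.Statements.S35
import Fermat.Statements.S36
import Fermat.Agent.GAL.Interface

/-!
# S58 (conductor-level matching) : top level contracts

`S58` is proved from `S35`, `S36` (as hypotheses `S35Stmt`, `S36Stmt`), the landed `S29`,
Frobenius density, and the following `Prop`-valued contracts, one per block.

Notation: `W : WeierstrassCurve ℤ`, `EP W = E(ℚ̄)`, `GQ = Gal(ℚ̄/ℚ)`.

* `StmtThmC`   (block THC)  : `Fr² - a Fr + ℓ = 0` on `Ē(k)`, ALL primes `ℓ`, general Weierstrass.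
* `StmtFrob`   (block LOCG) : `σ² - a_ℓ σ + ℓ = 0` on prime-to-`ℓ` torsion, `σ` a Frobenius at a good `ℓ`.
* `StmtInertGood` (block LOCG), `StmtInertMult` (block LOCM) : `(σ - 1)² = 0` on odd prime-to-`q`
  torsion, `σ` in inertia at a semistable prime `q`.
* `StmtTors`   (block TORS) : points of exact order `p ^ n`, `#E[p] = p²`, fields of definition.
* `StmtQuad`   (block QUAD) : the quadratic relation for every `g ∈ G_ℚ` (density argument).
* `StmtRes`    (block RES)  : residual representations with the Frobenius traces of `E` are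
  absolutely irreducible and odd if `E[p]` is irreducible.
* `StmtStab`   (block MOD)  : `q`-stabilisation of a normalised eigenform.
-/

set_option autoImplicit false

open Polynomial WeierstrassCurve WeierstrassCurve.Affine

namespace Fermat.Agent.S58

abbrev Qb := AlgebraicClosure ℚ
abbrev GQ := Qb ≃ₐ[ℚ] Qb

/-- the curve over `ℚ`. -/
abbrev EQ (W : WeierstrassCurve ℤ) : WeierstrassCurve ℚ := W.map (Int.castRingHom ℚ)

/-- `E(ℚ̄)`. -/
abbrev EP (W : WeierstrassCurve ℤ) : Type :=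
  ((W.map (Int.castRingHom ℚ))⁄(AlgebraicClosure ℚ)).Point

/-! ### the two unproved inputs -/

/-- the statement of S35. -/
def S35Stmt : Prop :=
  ∀ {M : ℕ} [NeZero M] {g : CuspForm (CongruenceSubgroup.Gamma0 M) 2} (_ : g.IsNewform)
    (lam : ℕ) [Fact lam.Prime]
    (S : Finset ℕ)
    (O' : Type) [CommRing O'] [IsDomain O'] [IsDiscreteValuationRing O']
    [IsAdicComplete (IsLocalRing.maximalIdeal O') O'] [Finite (IsLocalRing.ResidueField O')]
    [CharZero O'] (_ : (lam : O') ∈ IsLocalRing.maximalIdeal O')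
    (chig : CuspForm.heckeAlgebra M 2 (↑S : Set ℕ) →+* ℂ)
    (_ : ∀ (ℓ : ℕ) (hℓ : ℓ.Prime) (hℓM : ¬ ℓ ∣ M) (hℓS : ℓ ∉ (↑S : Set ℕ)),
      chig (CuspForm.heckeAlgebra.T hℓ hℓM hℓS) = ModularFormClass.qCoeff g ℓ)
    (iota : chig.range →+* O')
    (_ : lam ∈ S) (_ : ∀ q : ℕ, q.Prime → q ∣ M → q ∈ S),
    ∃ (O'' : Type) (_ : CommRing O'') (_ : IsDomain O'') (_ : IsDiscreteValuationRing O'')
      (_ : IsAdicComplete (IsLocalRing.maximalIdeal O'') O'') (_ : Finite (IsLocalRing.ResidueField O''))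
      (_ : CharZero O'') (_ : Algebra O' O'') (_ : Module.Finite O' O'') (_ : IsLocalHom (algebraMap O' O'')),
      Function.Injective (algebraMap O' O'') ∧
      ∃ ρ : GaloisRepAdic O'',
        (∀ (ℓ : ℕ) (hℓ : ℓ.Prime) (hℓM : ¬ ℓ ∣ M) (hℓS : ℓ ∉ (↑S : Set ℕ)),
          ∀ A : ValuationSubring (AlgebraicClosure ℚ), A.LiesOverPrime ℓ →
            ∀ σ : AlgebraicClosure ℚ ≃ₐ[ℚ] AlgebraicClosure ℚ, A.IsFrobeniusAt σ ℓ →
              LinearMap.charpoly (ρ.ρ σ) =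
                X ^ 2 - C (algebraMap O' O'' ((iota.comp chig.rangeRestrict) (CuspForm.heckeAlgebra.T hℓ hℓM hℓS))) * X
                  + C ((ℓ : O''))) ∧
        (∀ q : ℕ, q.Prime → q ≠ lam → q ∣ M → ¬ q ^ 2 ∣ M →
          ∀ A : ValuationSubring (AlgebraicClosure ℚ), A.LiesOverPrime q →
            ∀ σ : AlgebraicClosure ℚ ≃ₐ[ℚ] AlgebraicClosure ℚ, A.IsFrobeniusAt σ q →
              LinearMap.charpoly (ρ.ρ σ) = X ^ 2 - C ((q : O'') + 1) * X + C ((q : O'')) ∨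
              LinearMap.charpoly (ρ.ρ σ) = X ^ 2 + C ((q : O'') + 1) * X + C ((q : O'')))

/-- the statement of S36. -/
def S36Stmt : Prop :=
  ∀ {M : ℕ} [NeZero M] {g : CuspForm (CongruenceSubgroup.Gamma0 M) 2} (_ : g.IsNewform)
    (lam : ℕ) [Fact lam.Prime]
    (S : Finset ℕ)
    (O' : Type) [CommRing O'] [IsDomain O'] [IsDiscreteValuationRing O']
    [IsAdicComplete (IsLocalRing.maximalIdeal O') O'] [Finite (IsLocalRing.ResidueField O')]
    [CharZero O'] (_ : (lam : O') ∈ IsLocalRing.maximalIdeal O')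
    (_ : lam ≠ 2)
    (chig : CuspForm.heckeAlgebra M 2 (↑S : Set ℕ) →+* ℂ)
    (_ : ∀ (ℓ : ℕ) (hℓ : ℓ.Prime) (hℓM : ¬ ℓ ∣ M) (hℓS : ℓ ∉ (↑S : Set ℕ)),
      chig (CuspForm.heckeAlgebra.T hℓ hℓM hℓS) = ModularFormClass.qCoeff g ℓ)
    (iota : chig.range →+* O')
    (_ : lam ∈ S) (_ : ∀ q : ℕ, q.Prime → q ∣ M → q ∈ S)
    (_ : ∀ (O'' : Type) [CommRing O''] [IsDomain O''] [IsDiscreteValuationRing O'']
      [IsAdicComplete (IsLocalRing.maximalIdeal O'') O''] [Finite (IsLocalRing.ResidueField O'')] [CharZero O'']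
      [Algebra O' O''] [Module.Finite O' O''] [IsLocalHom (algebraMap O' O'')],
      Function.Injective (algebraMap O' O'') → ∀ (ρ : GaloisRepAdic O''),
      (∀ (ℓ : ℕ) (hℓ : ℓ.Prime) (_ : ℓ ≠ lam) (hℓM : ¬ ℓ ∣ M) (hℓS : ℓ ∉ (↑S : Set ℕ)),
        ∀ A : ValuationSubring (AlgebraicClosure ℚ), A.LiesOverPrime ℓ →
          ∀ σ : AlgebraicClosure ℚ ≃ₐ[ℚ] AlgebraicClosure ℚ, A.IsFrobeniusAt σ ℓ →
            LinearMap.charpoly (ρ.ρ σ) =
              X ^ 2 - C (algebraMap O' O'' ((iota.comp chig.rangeRestrict) (CuspForm.heckeAlgebra.T hℓ hℓM hℓS))) * X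
                + C ((ℓ : O'')))
      → ρ.residual.IsAbsolutelyIrreducible ∧ ρ.residual.IsOdd),
    ∃ (O'' : Type) (_ : CommRing O'') (_ : IsDomain O'') (_ : IsDiscreteValuationRing O'')
      (_ : IsAdicComplete (IsLocalRing.maximalIdeal O'') O'') (_ : Finite (IsLocalRing.ResidueField O''))
      (_ : CharZero O'') (_ : Algebra O' O'') (_ : Module.Finite O' O'') (_ : IsLocalHom (algebraMap O' O'')),
      Function.Injective (algebraMap O' O'') ∧
      ∃ ρ : GaloisRepAdic O'',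
        (∀ (ℓ : ℕ) (hℓ : ℓ.Prime) (hℓM : ¬ ℓ ∣ M) (hℓS : ℓ ∉ (↑S : Set ℕ)),
          ∀ A : ValuationSubring (AlgebraicClosure ℚ), A.LiesOverPrime ℓ →
            ∀ σ : AlgebraicClosure ℚ ≃ₐ[ℚ] AlgebraicClosure ℚ, A.IsFrobeniusAt σ ℓ →
              LinearMap.charpoly (ρ.ρ σ) =
                X ^ 2 - C (algebraMap O' O'' ((iota.comp chig.rangeRestrict) (CuspForm.heckeAlgebra.T hℓ hℓM hℓS))) * X
                  + C ((ℓ : O''))) ∧
        (∀ q : ℕ, q.Prime → q ≠ lam → M.factorization q = 2 → ¬ ρ.IsUnipotentOnInertiaAt q)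

/-! ### elliptic curve side -/

/-- **Theorem C**, all characteristics, general Weierstrass equations over the prime field. -/
def StmtThmC : Prop :=
  ∀ (ℓ : ℕ) [Fact ℓ.Prime] (W₀ : WeierstrassCurve (ZMod ℓ)), W₀.Δ ≠ 0 →
    ∀ (K : Type) [Field K] [DecidableEq K] [IsAlgClosed K] (φ : ZMod ℓ →+* K)
      (Fr : (W₀.map φ).toAffine.Point →+ (W₀.map φ).toAffine.Point),
      (∀ x y h, ∃ h', Fr (.some x y h) = .some (x ^ ℓ) (y ^ ℓ) h') →
      ∀ P : (W₀.map φ).toAffine.Point,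
        Fr (Fr P) - ((ℓ : ℤ) + 1 - (Nat.card W₀.toAffine.Point : ℤ)) • Fr P + (ℓ : ℤ) • P = 0

/-- Frobenius elements at good primes satisfy `X² - a_ℓ X + ℓ` on prime-to-`ℓ` torsion. -/
def StmtFrob : Prop :=
  ∀ (W : WeierstrassCurve ℤ) (ℓ : ℕ), ℓ.Prime → W.IsGoodPrimeFor ℓ →
    ∀ A : ValuationSubring Qb, A.LiesOverPrime ℓ → ∀ σ : GQ, A.IsFrobeniusAt σ ℓ →
      ∀ m : ℕ, ¬ ℓ ∣ m → ∀ P : EP W, m • P = 0 →
        σ • σ • P - W.apOfModel ℓ • σ • P + (ℓ : ℤ) • P = 0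

/-- the same for almost all primes (this weak form is what the density argument needs; it also
follows from `Lib/Ell/Main.lean`, `frob_rel`). -/
def StmtFrobAE : Prop :=
  ∀ (W : WeierstrassCurve ℤ), W.Δ ≠ 0 → ∀ m : ℕ, 0 < m →
    ∃ S : Finset ℕ, ∀ ℓ : ℕ, ℓ.Prime → ℓ ∉ S →
      ∀ A : ValuationSubring Qb, A.LiesOverPrime ℓ → ∀ σ : GQ, A.IsFrobeniusAt σ ℓ →
        ∀ P : EP W, m • P = 0 →
          σ • σ • P - W.apOfModel ℓ • σ • P + (ℓ : ℤ) • P = 0

/-- inertia at a good prime `q` acts trivially on prime-to-`q` torsion. -/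
def StmtInertGood : Prop :=
  ∀ (W : WeierstrassCurve ℤ) (q : ℕ), q.Prime → ¬ (q : ℤ) ∣ W.Δ →
    ∀ A : ValuationSubring Qb, A.LiesOverPrime q → ∀ σ ∈ A.inertiaSubgroupIn ℚ,
      ∀ m : ℕ, ¬ q ∣ m → ∀ P : EP W, m • P = 0 → σ • P = P

/-- inertia at a multiplicative prime `q` acts unipotently on odd prime-to-`q` torsion. -/
def StmtInertMult : Prop :=
  ∀ (W : WeierstrassCurve ℤ) (q : ℕ), q.Prime → W.Δ ≠ 0 → (q : ℤ) ∣ W.Δ → ¬ (q : ℤ) ∣ W.c₄ →
    ∀ A : ValuationSubring Qb, A.LiesOverPrime q → ∀ σ ∈ A.inertiaSubgroupIn ℚ,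
      ∀ m : ℕ, Odd m → ¬ q ∣ m → ∀ P : EP W, m • P = 0 →
        σ • (σ • P - P) = σ • P - P

/-- inertia at a semistable prime `q` acts unipotently on odd prime-to-`q` torsion. -/
def StmtInert : Prop :=
  ∀ (W : WeierstrassCurve ℤ) (q : ℕ), q.Prime → W.Δ ≠ 0 → ((q : ℤ) ∣ W.Δ → ¬ (q : ℤ) ∣ W.c₄) →
    ∀ A : ValuationSubring Qb, A.LiesOverPrime q → ∀ σ ∈ A.inertiaSubgroupIn ℚ,
      ∀ m : ℕ, Odd m → ¬ q ∣ m → ∀ P : EP W, m • P = 0 →
        σ • (σ • P - P) = σ • P - P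

/-- torsion points. -/
structure StmtTors : Prop where
  /-- points of exact order `p ^ n`. -/
  exact : ∀ (W : WeierstrassCurve ℤ), W.Δ ≠ 0 → ∀ p : ℕ, p.Prime → ∀ n : ℕ,
    ∃ P : EP W, addOrderOf P = p ^ n
  /-- `E[p]` is not cyclic. -/
  two : ∀ (W : WeierstrassCurve ℤ), W.Δ ≠ 0 → ∀ p : ℕ, p.Prime →
    ∀ P : EP W, p • P = 0 → ∃ Q : EP W, p • Q = 0 ∧ ∀ k : ℤ, Q ≠ k • P
  /-- `E[m]` is finite. -/
  fin : ∀ (W : WeierstrassCurve ℤ), W.Δ ≠ 0 → ∀ m : ℕ, 0 < m → {P : EP W | m • P = 0}.Finite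
  /-- `E[m]` is defined over a number field. -/
  level : ∀ (W : WeierstrassCurve ℤ), W.Δ ≠ 0 → ∀ m : ℕ, 0 < m →
    ∃ L : IntermediateField ℚ Qb, FiniteDimensional ℚ L ∧
      ∀ σ : GQ, (∀ x ∈ L, σ x = x) → ∀ P : EP W, m • P = 0 → σ • P = P

/-! ### comparison -/

/-- **The quadratic relation.**  `r` a rank two representation over `R`, trivial modulo `I` on an
open subgroup, with the Frobenius characteristic polynomials of `W` outside a finite set `B`.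
Then every `g ∈ G_ℚ` satisfies on `E[m]` an integral quadratic relation which is congruent to the
characteristic polynomial of `r g` modulo `I`; the constant term is the cyclotomic character. -/
def StmtQuad : Prop :=
  ∀ (W : WeierstrassCurve ℤ), W.Δ ≠ 0 →
    ∀ (R : Type) [CommRing R] (V : Type) [AddCommGroup V] [Module R V] [Module.Free R V]
      [Module.Finite R V], Module.finrank R V = 2 →
    ∀ (r : GQ →* Module.End R V) (I : Ideal R) (L : IntermediateField ℚ Qb),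
      FiniteDimensional ℚ L →
      (∀ σ : GQ, (∀ x ∈ L, σ x = x) → ∀ v : V, r σ v - v ∈ I • (⊤ : Submodule R V)) →
    ∀ B : Finset ℕ,
      (∀ ℓ : ℕ, ℓ.Prime → ℓ ∉ B → ∀ A : ValuationSubring Qb, A.LiesOverPrime ℓ →
        ∀ σ : GQ, A.IsFrobeniusAt σ ℓ →
          LinearMap.charpoly (r σ) = X ^ 2 - C ((W.apOfModel ℓ : ℤ) : R) * X + C (ℓ : R)) →
    ∀ (m : ℕ), 0 < m → ∀ g : GQ,
      ∃ (t : ℤ) (d : ℕ),
        (LinearMap.charpoly (r g)).coeff 1 + (t : R) ∈ I ∧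
        (LinearMap.charpoly (r g)).coeff 0 - (d : R) ∈ I ∧
        (∀ ζ : Qb, ζ ^ m = 1 → g ζ = ζ ^ d) ∧
        ∀ P : EP W, m • P = 0 → g • g • P - t • g • P + (d : ℤ) • P = 0

/-- residual representations with the traces of `E` are absolutely irreducible and odd. -/
def StmtRes : Prop :=
  ∀ (W : WeierstrassCurve ℤ), W.Δ ≠ 0 → ∀ (p : ℕ) [Fact p.Prime], p ≠ 2 →
    W.ModRepIsIrreducible p →
    ∀ (k : Type) [Field k] [CharP k p] (ρ : ResidualGaloisRep k) (B : Finset ℕ),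
      (∀ ℓ : ℕ, ℓ.Prime → ℓ ∉ B → ∀ A : ValuationSubring Qb, A.LiesOverPrime ℓ →
        ∀ σ : GQ, A.IsFrobeniusAt σ ℓ →
          LinearMap.charpoly (ρ.ρ σ) = X ^ 2 - C ((W.apOfModel ℓ : ℤ) : k) * X + C (ℓ : k)) →
      ρ.IsAbsolutelyIrreducible ∧ ρ.IsOdd

/-! ### modular forms side -/

/-- `q`-stabilisation. -/
def StmtStab : Prop :=
  ∀ (M q : ℕ), 0 < M → q.Prime → ¬ q ∣ M →
    ∀ g : CuspForm (CongruenceSubgroup.Gamma0 M) 2, g.IsNormalizedEigenform →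
      ∃ g' : CuspForm (CongruenceSubgroup.Gamma0 (M * q)) 2, g'.IsNormalizedEigenform ∧
        ∀ ℓ : ℕ, ℓ.Prime → ℓ ≠ q → ModularFormClass.qCoeff g' ℓ = ModularFormClass.qCoeff g ℓ

/-! ### trivial implications -/

theorem stmtInert_of (h1 : StmtInertGood) (h2 : StmtInertMult) : StmtInert := by
  intro W q hq hΔ hss A hA σ hσ m hm hqm P hP
  by_cases hd : (q : ℤ) ∣ W.Δ
  · exact h2 W q hq hΔ hd (hss hd) A hA σ hσ m hm hqm P hP
  · rw [h1 W q hq hd A hA σ hσ m hqm P hP, sub_self, smul_zero]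

theorem stmtFrobAE_of (h : StmtFrob) : StmtFrobAE := by
  intro W hΔ m hm
  refine ⟨m.primeFactors ∪ W.Δ.natAbs.primeFactors, ?_⟩
  intro ℓ hℓ hmem A hA σ hσ P hP
  simp only [Finset.mem_union, not_or, Nat.mem_primeFactors, not_and, not_not] at hmem
  refine h W ℓ hℓ ?_ A hA σ hσ m ?_ P hP
  · intro hd
    exact hΔ (Int.natAbs_eq_zero.mp (hmem.2 hℓ (Int.natCast_dvd.mp hd)))
  · intro hd
    exact hm.ne' (hmem.1 hℓ hd)

end Fermat.Agent.S58
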