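import Fermat.Agent.S58.Main.Final
import Fermat.Agent.S58.Quad.Main
import Fermat.Agent.S58.Res.Main
import Fermat.Agent.S58.Tors
import Fermat.Agent.S58.Mod.Stab
import Fermat.Agent.S58.LocG.Main
import Fermat.Agent.S58.LocM.Main
import Fermat.Agent.S58.ThmC.Main
import Fermat.Agent.S35

/-!
# S58 from S36 alone
-/

set_option autoImplicit false

namespace Fermat.Agent.S58

theorem s35Stmt : S35Stmt := by
  intro M _ g hg lam _ S O' _ _ _ _ _ _ hlamO' chig hchig iota hlamS hMS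
  exact Fermat.Agent.S35.result hg lam S O' hlamO' chig hchig iota hlamS hMS

theorem stmtQuad : StmtQuad := stmtQuad_of stmtFrobAE stmtTors

theorem s58_of_s36 (h36 : S36Stmt)
    (W : WeierstrassCurve ℤ) (hss : W.IsSemistableModel) (N : ℕ)
    (p : ℕ) [Fact p.Prime] (hp2 : p ≠ 2) (hirr : W.ModRepIsIrreducible p)
    (hp2N : ¬ p ^ 2 ∣ N)
    (hN : W.IsModularModelOfLevel N) (hbad : ∀ ℓ : ℕ, ℓ.Prime → (ℓ : ℤ) ∣ W.Δ → ℓ ∣ N)
    (hN3 : ∀ q : ℕ, q.Prime → ¬ q ^ 3 ∣ N) :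
    W.IsModularModelOfLevel W.conductorLevel :=
  s58_of_contracts s35Stmt h36 stmtQuad (LocG.stmtFrob_of stmtThmC)
    (stmtInert_of LocG.stmtInertGood LocM.stmtInertMult) stmtTors
    (Res.stmtRes_of stmtQuad stmtTors) stmtStab W hss N p hp2 hirr hp2N hN hbad hN3

end Fermat.Agent.S58
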